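import Fermat.Agent.ES.PermDim
import Fermat.Prelude.Def_ModularCurve_PeriodHomPair

set_option autoImplicit false

/-!
# Upper bound for the dimension of the space of parabolic homomorphisms

For a finite index subgroup `Γ` of `SL(2, ℤ)` containing `-1` we bound the dimension of
`Hom_par(Γ, ℂ)` in terms of the action of `S`, `ST` and `T` on `SL(2, ℤ) ⧸ Γ`.
-/

open Module ModularGroup ModularCurve.Period
open scoped MatrixGroups

namespace Fermat.Agent.ES

variable (Γ : Subgroup SL(2, ℤ))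

/-- The finite set `SL(2, ℤ) ⧸ Γ`. -/
abbrev Cosets := SL(2, ℤ) ⧸ Γ

/-- the permutation of the cosets given by left multiplication -/
def actPerm (g : SL(2, ℤ)) : Equiv.Perm (Cosets Γ) := MulAction.toPerm g

@[simp] lemma actPerm_apply (g : SL(2, ℤ)) (x : Cosets Γ) : actPerm Γ g x = g • x := rfl

lemma actPerm_mk (g h : SL(2, ℤ)) : actPerm Γ g (h : Cosets Γ) = ((g * h : SL(2, ℤ)) : Cosets Γ) := rfl

/-- Pairs `(φ, u)` with `φ` parabolic, `u (g γ) = u g + φ γ` and `u (T g) = u g`. -/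
def EP : Submodule ℂ ((Additive Γ →+ ℂ) × (SL(2, ℤ) → ℂ)) where
  carrier := {p | p.1 ∈ parabolicHoms ℂ Γ ℂ ∧
    (∀ (g : SL(2, ℤ)) (γ : Γ), p.2 (g * γ) = p.2 g + p.1 (Additive.ofMul γ)) ∧
    ∀ g : SL(2, ℤ), p.2 (T * g) = p.2 g}
  zero_mem' := ⟨Submodule.zero_mem _, fun _ _ => by simp, fun _ => rfl⟩
  add_mem' := by
    rintro a b ⟨ha1, ha2, ha3⟩ ⟨hb1, hb2, hb3⟩
    refine ⟨Submodule.add_mem _ ha1 hb1, fun g γ => ?_, fun g => ?_⟩
    · simp only [Prod.snd_add, Prod.fst_add, Pi.add_apply, AddMonoidHom.add_apply, ha2, hb2]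
      ring
    · simp only [Prod.snd_add, Pi.add_apply, ha3, hb3]
  smul_mem' := by
    rintro c a ⟨ha1, ha2, ha3⟩
    refine ⟨Submodule.smul_mem _ _ ha1, fun g γ => ?_, fun g => ?_⟩
    · simp only [Prod.smul_snd, Prod.smul_fst, Pi.smul_apply, AddMonoidHom.smul_apply, ha2,
        smul_eq_mul]
      ring
    · simp only [Prod.smul_snd, Pi.smul_apply, ha3]

variable {Γ}

lemma mem_EP {p : (Additive Γ →+ ℂ) × (SL(2, ℤ) → ℂ)} : p ∈ EP Γ ↔ p.1 ∈ parabolicHoms ℂ Γ ℂ ∧
    (∀ (g : SL(2, ℤ)) (γ : Γ), p.2 (g * γ) = p.2 g + p.1 (Additive.ofMul γ)) ∧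
    ∀ g : SL(2, ℤ), p.2 (T * g) = p.2 g := Iff.rfl

lemma parabolic_neg_one {φ : Additive Γ →+ ℂ} (hφ : φ ∈ parabolicHoms ℂ Γ ℂ)
    (h1 : (-1 : SL(2, ℤ)) ∈ Γ) : φ (Additive.ofMul ⟨-1, h1⟩) = 0 := by
  apply hφ
  show ((-1 : SL(2, ℤ)) : Matrix (Fin 2) (Fin 2) ℤ).trace ^ 2 = 4
  simp

lemma EP_neg {p : (Additive Γ →+ ℂ) × (SL(2, ℤ) → ℂ)} (hp : p ∈ EP Γ)
    (h1 : (-1 : SL(2, ℤ)) ∈ Γ) (g : SL(2, ℤ)) : p.2 (-g) = p.2 g := by
  obtain ⟨h, h2, -⟩ := mem_EP.mp hp
  have h3 := h2 g ⟨-1, h1⟩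
  rw [parabolic_neg_one h h1, add_zero] at h3
  rw [← h3]
  simp

/-- the element `S * T` of order 6 -/
def W : SL(2, ℤ) := S * T

lemma S_mul_S : (S * S : SL(2, ℤ)) = -1 := by decide

lemma W_pow_three : (W * W * W : SL(2, ℤ)) = -1 := by
  unfold W; decide

lemma neg_smul_coset (h1 : (-1 : SL(2, ℤ)) ∈ Γ) (x : Cosets Γ) : (-1 : SL(2, ℤ)) • x = x := by
  induction x using QuotientGroup.induction_on with
  | H g =>
    show (((-1 : SL(2, ℤ)) * g : SL(2, ℤ)) : Cosets Γ) = g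
    rw [QuotientGroup.eq]
    have : ((-1 : SL(2, ℤ)) * g)⁻¹ * g = -1 := by
      simp
    rw [this]
    exact h1

lemma actS_actS (h1 : (-1 : SL(2, ℤ)) ∈ Γ) (x : Cosets Γ) :
    actPerm Γ S (actPerm Γ S x) = x := by
  rw [actPerm_apply, actPerm_apply, smul_smul, S_mul_S, neg_smul_coset h1]

lemma actW_actW_actW (h1 : (-1 : SL(2, ℤ)) ∈ Γ) (x : Cosets Γ) :
    actPerm Γ W (actPerm Γ W (actPerm Γ W x)) = x := by
  rw [actPerm_apply, actPerm_apply, actPerm_apply, smul_smul, smul_smul, W_pow_three,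
    neg_smul_coset h1]

/-- The function `u (S g) - u g` on the cosets. -/
noncomputable def cocS (p : EP Γ) : Cosets Γ → ℂ :=
  fun x => Quotient.liftOn' x (fun g : SL(2, ℤ) => p.1.2 (S * g) - p.1.2 g) (by
    intro a b hab
    rw [QuotientGroup.leftRel_apply] at hab
    obtain ⟨-, h2, -⟩ := mem_EP.mp p.2
    have e : b = a * (a⁻¹ * b) := by group
    have h3 := h2 a ⟨a⁻¹ * b, hab⟩
    have h4 := h2 (S * a) ⟨a⁻¹ * b, hab⟩
    have e1 : a * (a⁻¹ * b) = b := by group
    have e2 : S * a * (a⁻¹ * b) = S * b := by group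
    simp only [e1, e2] at h3 h4
    show p.1.2 (S * a) - p.1.2 a = p.1.2 (S * b) - p.1.2 b
    rw [h3, h4]; ring)

lemma cocS_mk (p : EP Γ) (g : SL(2, ℤ)) :
    cocS p (g : Cosets Γ) = p.1.2 (S * g) - p.1.2 g := rfl

lemma cocS_mem (h1 : (-1 : SL(2, ℤ)) ∈ Γ) (p : EP Γ) :
    cocS p ∈ anti (actPerm Γ S) ⊓ ker3 (actPerm Γ W) := by
  have hneg := EP_neg p.2 h1
  obtain ⟨-, h2, hT⟩ := mem_EP.mp p.2
  have hS : ∀ x : Cosets Γ, cocS p (actPerm Γ S x) = - cocS p x := by
    intro x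
    induction x using QuotientGroup.induction_on with
    | H g =>
      rw [actPerm_mk, cocS_mk, cocS_mk]
      have : (S * (S * g) : SL(2, ℤ)) = -g := by
        rw [← mul_assoc, S_mul_S]; simp
      rw [this, hneg]; ring
  refine ⟨hS, ?_⟩
  intro x
  -- `cocS p (W x) = - cocS p (T x)`
  have hW : ∀ g : SL(2, ℤ), cocS p (actPerm Γ W (g : Cosets Γ)) = p.1.2 g - p.1.2 (W * g) := by
    intro g
    have : actPerm Γ W (g : Cosets Γ) = actPerm Γ S ((T * g : SL(2, ℤ)) : Cosets Γ) := by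
      rw [actPerm_mk, actPerm_mk, W, mul_assoc]
    rw [this, hS, cocS_mk, hT, W, mul_assoc]
    ring
  have key : ∀ x : Cosets Γ, cocS p (actPerm Γ W x) + cocS p (actPerm Γ W (actPerm Γ W x)) +
      cocS p (actPerm Γ W (actPerm Γ W (actPerm Γ W x))) = 0 := by
    intro x
    induction x using QuotientGroup.induction_on with
    | H g =>
      have e1 : cocS p (actPerm Γ W (g : Cosets Γ)) = p.1.2 g - p.1.2 (W * g) := hW g
      have e2 : cocS p (actPerm Γ W (actPerm Γ W (g : Cosets Γ))) =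
          p.1.2 (W * g) - p.1.2 (W * (W * g)) := by
        rw [actPerm_mk Γ W g]; exact hW (W * g)
      have e3 : cocS p (actPerm Γ W (actPerm Γ W (actPerm Γ W (g : Cosets Γ)))) =
          p.1.2 (W * (W * g)) - p.1.2 (W * (W * (W * g))) := by
        rw [actPerm_mk Γ W g, actPerm_mk Γ W (W * g)]; exact hW (W * (W * g))
      have e4 : (W * (W * (W * g)) : SL(2, ℤ)) = -g := by
        rw [← mul_assoc, ← mul_assoc, W_pow_three]; simp
      rw [e1, e2, e3, e4, hneg]; ring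
  have h5 := key x
  rw [actW_actW_actW h1] at h5
  linear_combination h5

/-- `EP → (anti S ⊓ ker3 W) × ℂ`, injective. -/
noncomputable def EPmap (h1 : (-1 : SL(2, ℤ)) ∈ Γ) :
    EP Γ →ₗ[ℂ] ↥(anti (actPerm Γ S) ⊓ ker3 (actPerm Γ W)) × ℂ where
  toFun p := (⟨cocS p, cocS_mem h1 p⟩, p.1.2 1)
  map_add' p q := by
    refine Prod.ext (Subtype.ext (funext fun x => ?_)) rfl
    induction x using QuotientGroup.induction_on with
    | H g =>
      show (p.1.2 (S * g) + q.1.2 (S * g)) - (p.1.2 g + q.1.2 g) =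
        (p.1.2 (S * g) - p.1.2 g) + (q.1.2 (S * g) - q.1.2 g)
      ring
  map_smul' c p := by
    refine Prod.ext (Subtype.ext (funext fun x => ?_)) rfl
    induction x using QuotientGroup.induction_on with
    | H g =>
      show c * p.1.2 (S * g) - c * p.1.2 g = c * (p.1.2 (S * g) - p.1.2 g)
      ring

lemma EPmap_injective (h1 : (-1 : SL(2, ℤ)) ∈ Γ) : Function.Injective (EPmap h1) := by
  rw [injective_iff_map_eq_zero]
  intro p hp
  obtain ⟨-, h2, hT⟩ := mem_EP.mp p.2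
  have hc : ∀ g : SL(2, ℤ), p.1.2 (S * g) = p.1.2 g := by
    intro g
    have : cocS p (g : Cosets Γ) = 0 := congrFun (congrArg (fun z => (z.1 : Cosets Γ → ℂ)) hp) g
    rw [cocS_mk] at this
    exact sub_eq_zero.mp this
  have h0 : p.1.2 1 = 0 := congrArg Prod.snd hp
  have hall : ∀ g : SL(2, ℤ), ∀ h : SL(2, ℤ), p.1.2 (g * h) = p.1.2 h := by
    intro g
    have hg : g ∈ Subgroup.closure ({S, T} : Set SL(2, ℤ)) := by
      rw [SpecialLinearGroup.SL2Z_generators]; trivial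
    induction hg using Subgroup.closure_induction with
    | mem x hx =>
      rcases hx with rfl | rfl
      · exact hc
      · exact hT
    | one => intro h; rw [one_mul]
    | mul x y _ _ hx hy => intro h; rw [mul_assoc, hx, hy]
    | inv x _ hx => intro h; rw [← hx (x⁻¹ * h), mul_inv_cancel_left]
  have hzero : ∀ g : SL(2, ℤ), p.1.2 g = 0 := by
    intro g
    have := hall g 1
    rwa [mul_one, h0] at this
  apply Subtype.ext
  refine Prod.ext ?_ (funext hzero)
  ext γ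
  have := h2 1 (Additive.toMul γ)
  rw [hzero, hzero, zero_add] at this
  exact this.symm

section Finite

variable [Γ.FiniteIndex]

noncomputable instance : Fintype (Cosets Γ) := Fintype.ofFinite _

lemma finite_EP (h1 : (-1 : SL(2, ℤ)) ∈ Γ) : Module.Finite ℂ (EP Γ) :=
  Module.Finite.of_injective (EPmap h1) (EPmap_injective h1)

lemma finrank_EP_le (h1 : (-1 : SL(2, ℤ)) ∈ Γ) :
    finrank ℂ (EP Γ) ≤ finrank ℂ ↥(anti (actPerm Γ S) ⊓ ker3 (actPerm Γ W)) + 1 := by
  have h := LinearMap.finrank_le_finrank_of_injective (EPmap_injective h1)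
  rw [Module.finrank_prod, Module.finrank_self] at h
  exact h

variable (Γ) in
/-- The projection `EP Γ → parabolicHoms`. -/
def EPproj : EP Γ →ₗ[ℂ] parabolicHoms ℂ Γ ℂ where
  toFun p := ⟨p.1.1, (mem_EP.mp p.2).1⟩
  map_add' _ _ := rfl
  map_smul' _ _ := rfl

omit [Γ.FiniteIndex] in
/-- `T`-invariant functions on the cosets embed in the kernel of the projection. -/
lemma finrank_inv_le_ker (hfin : Module.Finite ℂ (EP Γ)) [Fintype (Cosets Γ)] :
    finrank ℂ (inv (actPerm Γ T)) ≤ finrank ℂ (LinearMap.ker (EPproj Γ)) := by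
  let f : inv (actPerm Γ T) →ₗ[ℂ] LinearMap.ker (EPproj Γ) :=
    { toFun := fun v => ⟨⟨(0, fun g => v.1 (g : Cosets Γ)), by
        refine mem_EP.mpr ⟨Submodule.zero_mem _, fun g γ => ?_, fun g => ?_⟩
        · have : ((g * γ : SL(2, ℤ)) : Cosets Γ) = g := by
            rw [QuotientGroup.eq]; simp
          show v.1 ((g * γ : SL(2, ℤ)) : Cosets Γ) = v.1 (g : Cosets Γ) + 0
          rw [this, add_zero]
        · exact v.2 (g : Cosets Γ)⟩, by
        rw [LinearMap.mem_ker]; rfl⟩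
      map_add' := fun a b => by
        apply Subtype.ext; apply Subtype.ext
        refine Prod.ext ?_ rfl
        show (0 : Additive Γ →+ ℂ) = 0 + 0
        rw [add_zero]
      map_smul' := fun c a => by
        apply Subtype.ext; apply Subtype.ext
        refine Prod.ext ?_ rfl
        show (0 : Additive Γ →+ ℂ) = c • 0
        rw [smul_zero] }
  have hf : Function.Injective f := by
    intro a b hab
    apply Subtype.ext
    funext x
    induction x using QuotientGroup.induction_on with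
    | H g =>
      have := congrArg (fun z => z.1.1.2 g) hab
      exact this
  exact LinearMap.finrank_le_finrank_of_injective hf

/-- the equivalence relation given by double cosets `⟨T⟩ g Γ`. -/
def dcSetoid (Γ : Subgroup SL(2, ℤ)) : Setoid SL(2, ℤ) where
  r g h := ∃ (n : ℤ) (γ : Γ), h = T ^ n * g * γ
  iseqv :=
    { refl := fun g => ⟨0, 1, by simp⟩
      symm := by
        rintro g h ⟨n, γ, rfl⟩
        refine ⟨-n, γ⁻¹, ?_⟩
        simp only [zpow_neg, InvMemClass.coe_inv]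
        group
      trans := by
        rintro g h k ⟨n, γ, rfl⟩ ⟨m, δ, rfl⟩
        refine ⟨m + n, γ * δ, ?_⟩
        simp only [zpow_add, MulMemClass.coe_mul]
        group }

lemma trace_conj_T_zpow (x : SL(2, ℤ)) (n : ℤ) :
    ((x⁻¹ * T ^ n * x : SL(2, ℤ)) : Matrix (Fin 2) (Fin 2) ℤ).trace ^ 2 = 4 := by
  have h : ((x⁻¹ * T ^ n * x : SL(2, ℤ)) : Matrix (Fin 2) (Fin 2) ℤ).trace = 2 := by
    rw [Matrix.SpecialLinearGroup.coe_mul, Matrix.trace_mul_comm,
      ← Matrix.SpecialLinearGroup.coe_mul, ← mul_assoc, mul_inv_cancel, one_mul, coe_T_zpow]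
    simp [Matrix.trace_fin_two]
  rw [h]; norm_num

omit [Γ.FiniteIndex] in
lemma EPproj_surjective : Function.Surjective (EPproj Γ) := by
  rintro ⟨φ, hφ⟩
  let s := dcSetoid Γ
  -- representatives
  have hrep : ∀ g : SL(2, ℤ), ∃ (n : ℤ) (γ : Γ),
      g = T ^ n * (Quotient.out (Quotient.mk s g)) * γ := by
    intro g
    have : s.r (Quotient.out (Quotient.mk s g)) g := Quotient.mk_out (s := s) g
    exact this
  choose n γ hnγ using hrep
  have hwd : ∀ (x : SL(2, ℤ)) (a b : ℤ) (γ₁ γ₂ : Γ),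
      T ^ a * x * γ₁ = T ^ b * x * γ₂ → φ (Additive.ofMul γ₁) = φ (Additive.ofMul γ₂) := by
    intro x a b γ₁ γ₂ h
    have h2 : ((γ₁ * γ₂⁻¹ : Γ) : SL(2, ℤ)) = x⁻¹ * T ^ (b - a) * x := by
      have h3 : (γ₁ : SL(2, ℤ)) = (T ^ a * x)⁻¹ * (T ^ b * x * γ₂) := by
        rw [← h]; group
      rw [MulMemClass.coe_mul, h3, InvMemClass.coe_inv, zpow_sub]
      have : (T ^ b * (T ^ a)⁻¹ : SL(2, ℤ)) = (T ^ a)⁻¹ * T ^ b := by
        rw [← zpow_neg, ← zpow_add, ← zpow_add, add_comm]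
      rw [this]
      group
    have h4 : φ (Additive.ofMul (γ₁ * γ₂⁻¹)) = 0 := by
      apply hφ
      rw [h2]
      exact trace_conj_T_zpow x (b - a)
    rw [ofMul_mul, map_add, ofMul_inv, map_neg, ← sub_eq_add_neg, sub_eq_zero] at h4
    exact h4
  refine ⟨⟨(φ, fun g => φ (Additive.ofMul (γ g))), ?_⟩, rfl⟩
  refine mem_EP.mpr ⟨hφ, fun g δ => ?_, fun g => ?_⟩
  · show φ (Additive.ofMul (γ (g * δ))) = φ (Additive.ofMul (γ g)) + φ (Additive.ofMul δ)
    have hq : Quotient.mk s (g * δ) = Quotient.mk s g :=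
      Quotient.sound (s.iseqv.symm ⟨0, δ, by simp⟩)
    have h1 := hnγ (g * δ)
    rw [hq] at h1
    have h2 : (g * δ : SL(2, ℤ)) =
        T ^ (n g) * (Quotient.out (Quotient.mk s g)) * ((γ g * δ : Γ) : SL(2, ℤ)) := by
      rw [MulMemClass.coe_mul, ← mul_assoc, ← hnγ g]
    have h3 := hwd _ _ _ _ _ (h1.symm.trans h2)
    rw [h3, ofMul_mul, map_add]
  · show φ (Additive.ofMul (γ (T * g))) = φ (Additive.ofMul (γ g))
    have hq : Quotient.mk s (T * g) = Quotient.mk s g :=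
      Quotient.sound (s.iseqv.symm ⟨1, 1, by simp⟩)
    have h1 := hnγ (T * g)
    rw [hq] at h1
    have h2 : (T * g : SL(2, ℤ)) =
        T ^ (1 + n g) * (Quotient.out (Quotient.mk s g)) * (γ g : SL(2, ℤ)) := by
      rw [zpow_add, zpow_one, mul_assoc, mul_assoc, ← mul_assoc (T ^ n g), ← hnγ g]
    exact hwd _ _ _ _ _ (h1.symm.trans h2)

/-- The set of parabolic homs is finite-dimensional. -/
theorem finite_parabolicHoms (h1 : (-1 : SL(2, ℤ)) ∈ Γ) :
    Module.Finite ℂ (parabolicHoms ℂ Γ ℂ) :=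
  have := finite_EP h1
  Module.Finite.of_surjective (EPproj Γ) EPproj_surjective

/-- Main bound. -/
theorem finrank_parabolicHoms_add_le (h1 : (-1 : SL(2, ℤ)) ∈ Γ) :
    finrank ℂ (parabolicHoms ℂ Γ ℂ) + finrank ℂ (inv (actPerm Γ T)) +
      finrank ℂ (inv (actPerm Γ S)) + finrank ℂ (inv (actPerm Γ W)) ≤
      Fintype.card (Cosets Γ) + 2 := by
  have hfin := finite_EP h1
  have h2 := LinearMap.finrank_range_add_finrank_ker (EPproj Γ)
  rw [LinearMap.range_eq_top.mpr EPproj_surjective, finrank_top] at h2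
  have h3 := finrank_inv_le_ker hfin
  have h4 := finrank_EP_le h1
  have h5 := finrank_inf_le (actPerm Γ S) (actPerm Γ W) (actS_actS h1) (actW_actW_actW h1) (by
    intro v hS hW
    refine ⟨v ((1 : SL(2, ℤ)) : Cosets Γ), ?_⟩
    have hSW : ∀ g : SL(2, ℤ), ∀ x : Cosets Γ, v (g • x) = v x := by
      intro g
      have hT' : ∀ x : Cosets Γ, v (T • x) = v x := by
        intro x
        have e1 : v (S • (T • x)) = v x := by
          rw [smul_smul]; exact hW x
        rw [← hS (T • x)]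
        exact e1
      have hg : g ∈ Subgroup.closure ({S, T} : Set SL(2, ℤ)) := by
        rw [SpecialLinearGroup.SL2Z_generators]; trivial
      induction hg using Subgroup.closure_induction with
      | mem x hx =>
        rcases hx with rfl | rfl
        · exact hS
        · exact hT'
      | one => intro x; rw [one_smul]
      | mul x y _ _ hx hy => intro z; rw [mul_smul, hx, hy]
      | inv x _ hx => intro z; rw [← hx (x⁻¹ • z), smul_inv_smul]
    intro x
    induction x using QuotientGroup.induction_on with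
    | H g =>
      have := hSW g ((1 : SL(2, ℤ)) : Cosets Γ)
      rw [← this]
      congr 1
      show (g : Cosets Γ) = ((g * 1 : SL(2, ℤ)) : Cosets Γ)
      rw [mul_one])
  omega

end Finite

end Fermat.Agent.ES
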