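import Fermat.Agent.ES.Injective
import Fermat.Agent.ES.ParabolicDim
import Fermat.Prelude.Def_ModularCurve_GenusNumerics

set_option autoImplicit false

/-!
# Eichler-Shimura in weight two: assembly

Everything except the dimension formula for `S_2(Γ₀(N))` and the counts of cosets fixed by
`S`, `ST` and of `T`-orbits.
-/

open UpperHalfPlane Filter Topology Function CongruenceSubgroup Module
open ModularCurve ModularCurve.Period ModularGroup
open scoped MatrixGroups Manifold ModularForm Pointwise ComplexConjugate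

namespace Fermat.Agent.ES

lemma neg_one_mem_Gamma0 (N : ℕ) : (-1 : SL(2, ℤ)) ∈ Gamma0 N := by
  rw [Gamma0_mem]; simp

variable (N : ℕ) [NeZero N]

theorem range_periodHomPair_le :
    LinearMap.range (periodHomPair N) ≤ parabolicHoms ℂ (Gamma0 N) ℂ := by
  rintro _ ⟨⟨f, g⟩, rfl⟩
  rw [periodHomPair_apply]
  have h1 := periodMap_mem_parabolicHoms f
  have h2 := periodMap_mem_parabolicHoms g
  exact Submodule.add_mem _ (Submodule.add_mem _ h1 (charInvolution_mem_parabolicHoms N ℂ ℂ h1))
    (Submodule.sub_mem _ h2 (charInvolution_mem_parabolicHoms N ℂ ℂ h2))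

instance finite_parabolicHoms_Gamma0 : Module.Finite ℂ (parabolicHoms ℂ (Gamma0 N) ℂ) :=
  finite_parabolicHoms (neg_one_mem_Gamma0 N)

/-- The period pairing as an injective linear map to the parabolic homomorphisms. -/
noncomputable def ESmap : (CuspForm (Gamma0 N) 2 × CuspForm (Gamma0 N) 2) →ₗ[ℂ]
    parabolicHoms ℂ (Gamma0 N) ℂ :=
  (periodHomPair N).codRestrict _ fun x => range_periodHomPair_le N ⟨x, rfl⟩

lemma ESmap_injective : Function.Injective (ESmap N) := by
  intro x y h
  exact periodHomPair_injective N (congrArg Subtype.val h)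

/-- Weight two cusp forms are finite-dimensional (from Eichler-Shimura). -/
theorem finite_cuspForm_two : Module.Finite ℂ (CuspForm (Gamma0 N) 2) := by
  have h1 : Function.Injective
      ((ESmap N) ∘ₗ (LinearMap.inl ℂ (CuspForm (Gamma0 N) 2) (CuspForm (Gamma0 N) 2))) :=
    (ESmap_injective N).comp LinearMap.inl_injective
  exact Module.Finite.of_injective _ h1

/-- `2 dim S_2 ≤ dim H^1_par`. -/
theorem two_mul_finrank_cuspForm_le :
    2 * finrank ℂ (CuspForm (Gamma0 N) 2) ≤ finrank ℂ (parabolicHoms ℂ (Gamma0 N) ℂ) := by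
  have := finite_cuspForm_two N
  have h := LinearMap.finrank_le_finrank_of_injective (ESmap_injective N)
  rw [Module.finrank_prod] at h
  omega

/-- Eichler-Shimura from the inequality `dim H^1_par ≤ 2 dim S_2`. -/
theorem eichlerShimura_of_finrank_le
    (h : finrank ℂ (parabolicHoms ℂ (Gamma0 N) ℂ) ≤ 2 * finrank ℂ (CuspForm (Gamma0 N) 2)) :
    Function.Injective (ModularCurve.periodHomPair N)
      ∧ LinearMap.range (ModularCurve.periodHomPair N)
          = ModularCurve.Period.parabolicHoms ℂ (CongruenceSubgroup.Gamma0 N) ℂ := by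
  refine ⟨periodHomPair_injective N, ?_⟩
  have := finite_cuspForm_two N
  apply Submodule.eq_of_le_of_finrank_le (range_periodHomPair_le N)
  rw [LinearMap.finrank_range_of_inj (periodHomPair_injective N), Module.finrank_prod]
  omega

/-- The upper bound for the dimension of the parabolic cohomology, in terms of counts. -/
theorem finrank_parabolicHoms_le_counts :
    (finrank ℂ (parabolicHoms ℂ (Gamma0 N) ℂ) : ℚ) ≤
      2 * (1 + (Nat.card (Cosets (Gamma0 N)) : ℚ) / 12
        - (Nat.card (fixedPoints (actPerm (Gamma0 N) S)) : ℚ) / 4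
        - (Nat.card (fixedPoints (actPerm (Gamma0 N) W)) : ℚ) / 3
        - (finrank ℂ (inv (actPerm (Gamma0 N) T)) : ℚ) / 2) := by
  have h1 := finrank_parabolicHoms_add_le (neg_one_mem_Gamma0 N)
  have h2 := two_mul_finrank_inv (actPerm (Gamma0 N) S) (actS_actS (neg_one_mem_Gamma0 N))
  have h3 := three_mul_finrank_inv (actPerm (Gamma0 N) W) (actW_actW_actW (neg_one_mem_Gamma0 N))
  rw [Nat.card_eq_fintype_card (α := Cosets (Gamma0 N))]
  have h1' : (finrank ℂ (parabolicHoms ℂ (Gamma0 N) ℂ) : ℚ)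
      + (finrank ℂ (inv (actPerm (Gamma0 N) T)) : ℚ)
      + (finrank ℂ (inv (actPerm (Gamma0 N) S)) : ℚ)
      + (finrank ℂ (inv (actPerm (Gamma0 N) W)) : ℚ) ≤
      (Fintype.card (Cosets (Gamma0 N)) : ℚ) + 2 := by exact_mod_cast h1
  have h2' : 2 * (finrank ℂ (inv (actPerm (Gamma0 N) S)) : ℚ) =
      (Fintype.card (Cosets (Gamma0 N)) : ℚ) +
        (Nat.card (fixedPoints (actPerm (Gamma0 N) S)) : ℚ) := by exact_mod_cast h2
  have h3' : 3 * (finrank ℂ (inv (actPerm (Gamma0 N) W)) : ℚ) =
      (Fintype.card (Cosets (Gamma0 N)) : ℚ) +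
        2 * (Nat.card (fixedPoints (actPerm (Gamma0 N) W)) : ℚ) := by exact_mod_cast h3
  linarith

/-- Eichler-Shimura from the dimension formula and the counts. -/
theorem eichlerShimura_of_counts
    (hdim : (Module.finrank ℂ (CuspForm (CongruenceSubgroup.Gamma0 N) 2) : ℚ) = genusFormula N)
    (hpsi : Nat.card (Cosets (Gamma0 N)) = dedekindPsi N)
    (h2 : Nat.card (fixedPoints (actPerm (Gamma0 N) S)) = nuTwo N)
    (h3 : Nat.card (fixedPoints (actPerm (Gamma0 N) W)) = nuThree N)
    (hc : finrank ℂ (inv (actPerm (Gamma0 N) T)) = cuspCount N) :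
    Function.Injective (ModularCurve.periodHomPair N)
      ∧ LinearMap.range (ModularCurve.periodHomPair N)
          = ModularCurve.Period.parabolicHoms ℂ (CongruenceSubgroup.Gamma0 N) ℂ := by
  apply eichlerShimura_of_finrank_le
  have h := finrank_parabolicHoms_le_counts N
  rw [hpsi, h2, h3, hc] at h
  have h' : (finrank ℂ (parabolicHoms ℂ (Gamma0 N) ℂ) : ℚ) ≤
      2 * (Module.finrank ℂ (CuspForm (CongruenceSubgroup.Gamma0 N) 2) : ℚ) := by
    rw [hdim, genusFormula]; exact h
  exact_mod_cast h'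

/-- The inequality `dim S_2(Γ₀(N)) ≤ genus`, in terms of counts. -/
theorem finrank_cuspForm_two_le_counts :
    (finrank ℂ (CuspForm (Gamma0 N) 2) : ℚ) ≤
      1 + (Nat.card (Cosets (Gamma0 N)) : ℚ) / 12
        - (Nat.card (fixedPoints (actPerm (Gamma0 N) S)) : ℚ) / 4
        - (Nat.card (fixedPoints (actPerm (Gamma0 N) W)) : ℚ) / 3
        - (finrank ℂ (inv (actPerm (Gamma0 N) T)) : ℚ) / 2 := by
  have h1 := two_mul_finrank_cuspForm_le N
  have h2 := finrank_parabolicHoms_le_counts N
  have h1' : 2 * (finrank ℂ (CuspForm (Gamma0 N) 2) : ℚ) ≤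
    (finrank ℂ (parabolicHoms ℂ (Gamma0 N) ℂ) : ℚ) := by exact_mod_cast h1
  linarith

end Fermat.Agent.ES
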