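import Fermat.Agent.ES.Parabolic

set_option autoImplicit false

/-!
# Injectivity of the Eichler-Shimura period map
-/

open UpperHalfPlane Filter Topology Function CongruenceSubgroup
open ModularCurve ModularCurve.Period ModularGroup
open scoped MatrixGroups Manifold ModularForm Pointwise ComplexConjugate

namespace Fermat.Agent.ES

/-- The reflection `z ↦ -conj z` of the upper half plane. -/
noncomputable def refl (z : ℍ) : ℍ := ⟨-conj (z : ℂ), by simpa using z.im_pos⟩

@[simp] lemma coe_refl (z : ℍ) : ((refl z : ℍ) : ℂ) = -conj (z : ℂ) := rfl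

@[simp] lemma refl_refl (z : ℍ) : refl (refl z) = z := by
  ext
  simp

@[simp] lemma refl_im (z : ℍ) : (refl z).im = z.im := by
  show (-conj (z : ℂ)).im = (z : ℂ).im
  simp

lemma coe_SL_smul (g : SL(2, ℤ)) (z : ℍ) :
    ((g • z : ℍ) : ℂ) = ((g 0 0 : ℤ) * (z : ℂ) + (g 0 1 : ℤ)) / ((g 1 0 : ℤ) * (z : ℂ) + (g 1 1 : ℤ)) := by
  rw [UpperHalfPlane.coe_specialLinearGroup_apply]
  simp

lemma refl_smul (g : SL(2, ℤ)) (z : ℍ) : refl (g • z) = jConjSL g • refl z := by
  ext
  rw [coe_refl, coe_SL_smul, coe_SL_smul, coe_refl]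
  simp only [jConjSL_coe, jConjMat_apply_zero_zero, jConjMat_apply_zero_one,
    jConjMat_apply_one_zero, jConjMat_apply_one_one]
  rw [map_div₀, map_add, map_add, map_mul, map_mul, map_intCast, map_intCast, map_intCast,
    map_intCast, ← neg_div]
  congr 1
  · push_cast; ring
  · push_cast; ring

lemma tendsto_refl_atImInfty : Tendsto refl atImInfty atImInfty := by
  rw [atImInfty, tendsto_comap_iff]
  have : (UpperHalfPlane.im ∘ refl) = UpperHalfPlane.im := by
    funext z
    exact refl_im z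
  rw [this]
  exact tendsto_comap

/-- The conjugate function `z ↦ conj (F (- conj z))`. -/
noncomputable def star' (F : ℍ → ℂ) : ℍ → ℂ := fun z => conj (F (refl z))

lemma IsPrim.star' {F f : ℍ → ℂ} (hF : IsPrim F f) :
    IsPrim (star' F) (fun z => - conj (f (refl z))) := by
  intro τ
  have h1 := hF (refl τ)
  -- derivative of `w ↦ Φ (-w)` at `conj τ`
  have h2 : HasDerivAt (fun w : ℂ => (F ∘ ofComplex) (-w)) (-(f (refl τ))) (conj (τ : ℂ)) := by
    have h3 : HasDerivAt (F ∘ ofComplex) (f (refl τ)) (-(conj (τ : ℂ))) := h1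
    have h4 := h3.comp (conj (τ : ℂ)) (hasDerivAt_neg (conj (τ : ℂ)))
    rw [mul_neg, mul_one] at h4
    exact h4
  have h5 := h2.conj_conj
  rw [map_neg] at h5
  rw [Complex.conj_conj] at h5
  refine h5.congr_of_eventuallyEq ?_
  filter_upwards [isOpen_upperHalfPlaneSet.mem_nhds τ.im_pos] with z hz
  simp only [Function.comp_apply, Fermat.Agent.ES.star']
  congr 2
  ext
  rw [coe_refl, ofComplex_apply_of_im_pos hz]
  have hz' : 0 < (-(conj z)).im := by simpa using hz
  rw [ofComplex_apply_of_im_pos hz']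

lemma Good.star' {M : ℝ} {F f : ℍ → ℂ} (hF : Good M F) (hFf : IsPrim F f) : Good M (star' F) := by
  refine ⟨hFf.star'.mdiff, fun δ => ?_, fun δ => ?_⟩
  · intro z
    have hper := hF.periodic (jConjSL δ)
    simp only [Function.comp_apply, Fermat.Agent.ES.star', refl_smul]
    congr 1
    by_cases hz : 0 < z.im
    · have hz' : 0 < (z + M).im := by simpa using hz
      rw [ofComplex_apply_of_im_pos hz, ofComplex_apply_of_im_pos hz']
      have h2 := hper (-(conj z) - M)
      simp only [Function.comp_apply, sub_add_cancel] at h2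
      have hz1 : 0 < (-(conj z)).im := by simpa using hz
      have hz2 : 0 < (-(conj z) - M : ℂ).im := by simpa using hz
      rw [ofComplex_apply_of_im_pos hz1, ofComplex_apply_of_im_pos hz2] at h2
      have e1 : refl ⟨z, hz⟩ = ⟨-(conj z), hz1⟩ := rfl
      have e2 : refl ⟨z + M, hz'⟩ = ⟨-(conj z) - M, hz2⟩ := by
        ext
        simp
        ring
      rw [e1, e2, h2]
    · have hz' : (z + M).im ≤ 0 := by simpa using hz
      rw [ofComplex_apply_of_im_nonpos (not_lt.mp hz), ofComplex_apply_of_im_nonpos hz']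
  · obtain ⟨L, hL⟩ := hF.limit (jConjSL δ)
    refine ⟨conj L, ?_⟩
    have h1 := hL.comp tendsto_refl_atImInfty
    have h2 := (Complex.continuous_conj.tendsto L).comp h1
    refine h2.congr fun z => ?_
    simp only [Function.comp_apply, Fermat.Agent.ES.star', refl_smul]

lemma Good.add {M : ℝ} {F G : ℍ → ℂ} (hF : Good M F) (hG : Good M G) : Good M (F + G) := by
  refine ⟨hF.holo.add hG.holo, fun δ z => ?_, fun δ => ?_⟩
  · have h1 := hF.periodic δ z
    have h2 := hG.periodic δ z
    simp only [Function.comp_apply, Pi.add_apply] at h1 h2 ⊢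
    rw [h1, h2]
  · obtain ⟨L, hL⟩ := hF.limit δ
    obtain ⟨L', hL'⟩ := hG.limit δ
    exact ⟨_, hL.add hL'⟩

lemma Good.const_smul {M : ℝ} {F : ℍ → ℂ} (c : ℂ) (hF : Good M F) : Good M (c • F) := by
  refine ⟨hF.holo.const_smul c, fun δ z => ?_, fun δ => ?_⟩
  · have h1 := hF.periodic δ z
    simp only [Function.comp_apply, Pi.smul_apply] at h1 ⊢
    rw [h1]
  · obtain ⟨L, hL⟩ := hF.limit δ
    exact ⟨_, hL.const_smul c⟩

lemma Good.cexp {M : ℝ} {F f : ℍ → ℂ} (hF : Good M F) (hFf : IsPrim F f) :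
    Good M (fun z => Complex.exp (F z)) := by
  refine ⟨?_, fun δ z => ?_, fun δ => ?_⟩
  · intro τ
    rw [UpperHalfPlane.mdifferentiableAt_iff]
    exact (hFf τ).cexp.differentiableAt
  · have h1 := hF.periodic δ z
    simp only [Function.comp_apply] at h1 ⊢
    rw [h1]
  · obtain ⟨L, hL⟩ := hF.limit δ
    exact ⟨_, (Complex.continuous_exp.tendsto L).comp hL⟩

/-- If `F` is a good primitive of `f` whose real part is `Γ`-invariant, then `f = 0`. -/
theorem eq_zero_of_re_invariant {M : ℝ} (hM : 0 < M) {F f : ℍ → ℂ} (hF : Good M F)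
    (hFf : IsPrim F f) (Γ : Subgroup SL(2, ℤ)) [Γ.FiniteIndex]
    (hinv : ∀ γ ∈ Γ, ∀ z : ℍ, (F (γ • z)).re = (F z).re) : f = 0 := by
  have h1 := (hF.cexp hFf).const_of_norm_invariant hM Γ (fun γ hγ z => by
    rw [Complex.norm_exp, Complex.norm_exp, hinv γ hγ z])
  funext τ
  have h2 := (hFf τ).cexp
  have h3 : HasDerivAt (fun x : ℂ => Complex.exp ((F ∘ ofComplex) x)) 0 (τ : ℂ) := by
    have : (fun x : ℂ => Complex.exp ((F ∘ ofComplex) x)) = fun _ => Complex.exp (F τ) := by
      funext x
      exact h1 _ _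
    rw [this]
    exact hasDerivAt_const _ _
  have h4 := h2.unique h3
  rcases mul_eq_zero.mp h4 with h5 | h5
  · exact absurd h5 (Complex.exp_ne_zero _)
  · exact h5

variable {N : ℕ} [NeZero N]

/-- The key vanishing statement. -/
theorem eq_zero_of_period_relation (f g : CuspForm (Gamma0 N) 2)
    (h : ∀ γ : Gamma0 N, periodMap N f (Additive.ofMul γ) +
      periodMap N g (Additive.ofMul (jConjGamma0 N γ)) = 0) : f = 0 ∧ g = 0 := by
  obtain ⟨M, hM, hper⟩ := exists_common_period N
  have hM' : (0 : ℝ) < M := by exact_mod_cast hM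
  -- primitives with the same period `M`
  have H : ∀ f : CuspForm (Gamma0 N) 2, ∀ δ : SL(2, ℤ), ∃ G : ℍ → ℂ,
      IsPrim G (⇑f ∣[(2 : ℤ)] δ) ∧ Tendsto G atImInfty (𝓝 0) ∧
      Periodic (G ∘ ofComplex) (M : ℝ) := by
    intro f δ
    let g := CuspForm.translate f (δ : GL (Fin 2) ℝ)
    have hg : ⇑g = ⇑f ∣[(2 : ℤ)] δ := CuspForm.coe_translate f δ
    have hMper : (M : ℝ) ∈ (ConjAct.toConjAct (δ : GL (Fin 2) ℝ)⁻¹ •
        ((Gamma0 N : Subgroup SL(2, ℤ)) : Subgroup (GL (Fin 2) ℝ))).strictPeriods := by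
      have := hper δ⁻¹
      rwa [map_inv] at this
    have : Fact (IsCusp OnePoint.infty (ConjAct.toConjAct (δ : GL (Fin 2) ℝ)⁻¹ •
        ((Gamma0 N : Subgroup SL(2, ℤ)) : Subgroup (GL (Fin 2) ℝ)))) :=
      ⟨Subgroup.isCusp_of_mem_strictPeriods hM' hMper⟩
    rw [← hg]
    exact exists_prim_of_periodic hM' (SlashInvariantFormClass.periodic_comp_ofComplex g hMper)
      (ModularFormClass.holo g) (CuspFormClass.zero_at_infty g)
  obtain ⟨F, hFgood, hFp, hF⟩ := exists_good_primitive_of f (H f)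
  obtain ⟨G, hGgood, hGp, hG⟩ := exists_good_primitive_of g (H g)
  -- invariance of `F z + G (refl z)`
  have hinv : ∀ γ ∈ Gamma0 N, ∀ z : ℍ, F (γ • z) + G (refl (γ • z)) = F z + G (refl z) := by
    intro γ hγ z
    have h1 := h ⟨γ, hγ⟩
    rw [periodMap_apply hF _ z, periodMap_apply hG _ (refl z)] at h1
    rw [refl_smul]
    have h2 : ((jConjGamma0 N ⟨γ, hγ⟩ : Gamma0 N) : SL(2, ℤ)) = jConjSL γ := rfl
    rw [h2] at h1
    have h3 : ((⟨γ, hγ⟩ : Gamma0 N) : SL(2, ℤ)) = γ := rfl
    rw [h3] at h1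
    linear_combination h1
  have hGs := hGgood.star' hGp
  have hGsp := hGp.star'
  -- real part of `F + star' G`
  have h1 : (⇑f + fun z => - conj (g (refl z))) = 0 := by
    refine eq_zero_of_re_invariant hM' (hFgood.add hGs) (hFp.add hGsp) (Gamma0 N) ?_
    intro γ hγ z
    have h2 := congrArg Complex.re (hinv γ hγ z)
    simpa [star'] using h2
  have h2 : (Complex.I • ⇑f + (-Complex.I) • fun z => - conj (g (refl z))) = 0 := by
    refine eq_zero_of_re_invariant hM' ((hFgood.const_smul Complex.I).add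
      (hGs.const_smul (-Complex.I)))
      ((hFp.const_smul Complex.I).add (hGsp.const_smul (-Complex.I))) (Gamma0 N) ?_
    intro γ hγ z
    have h3 := congrArg Complex.im (hinv γ hγ z)
    simp only [Pi.add_apply, Pi.smul_apply, smul_eq_mul, star', Complex.add_re, Complex.mul_re,
      Complex.I_re, Complex.I_im, Complex.neg_re, Complex.neg_im, Complex.conj_re, Complex.conj_im,
      Complex.add_im] at h3 ⊢
    linear_combination -h3
  have hf0 : ∀ z : ℍ, f z = 0 := by
    intro z
    have e1 := congrFun h1 z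
    have e2 := congrFun h2 z
    simp only [Pi.add_apply, Pi.smul_apply, smul_eq_mul, Pi.zero_apply] at e1 e2
    have e3 : (2 * Complex.I) * f z = 0 := by linear_combination Complex.I * e1 + e2
    rcases mul_eq_zero.mp e3 with h4 | h4
    · simp at h4
    · exact h4
  have hg0 : ∀ z : ℍ, g z = 0 := by
    intro z
    have e1 := congrFun h1 (refl z)
    simp only [Pi.add_apply, Pi.zero_apply, hf0, refl_refl, zero_add, neg_eq_zero] at e1
    have := congrArg conj e1
    simpa using this
  exact ⟨DFunLike.ext _ _ hf0, DFunLike.ext _ _ hg0⟩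

/-- Injectivity of the Eichler-Shimura map. -/
theorem periodHomPair_injective (N : ℕ) [NeZero N] : Function.Injective (periodHomPair N) := by
  rw [injective_iff_map_eq_zero]
  rintro ⟨f, g⟩ h
  have hlin := periodHomPair_apply f g
  rw [h] at hlin
  have h1 : ∀ γ : Gamma0 N, periodMap N (f + g) (Additive.ofMul γ) +
      periodMap N (f - g) (Additive.ofMul (jConjGamma0 N γ)) = 0 := by
    intro γ
    have hadd : periodMap N (f + g) = periodMap N f + periodMap N g := (periodLin N).map_add f g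
    have hsub : periodMap N (f - g) = periodMap N f - periodMap N g := (periodLin N).map_sub f g
    have h2 := DFunLike.congr_fun hlin (Additive.ofMul γ)
    simp only [AddMonoidHom.zero_apply, AddMonoidHom.add_apply, AddMonoidHom.sub_apply,
      charInvolution_apply, toMul_ofMul] at h2
    rw [hadd, hsub, AddMonoidHom.add_apply, AddMonoidHom.sub_apply]
    linear_combination -h2
  obtain ⟨e1, e2⟩ := eq_zero_of_period_relation (f + g) (f - g) h1
  have e3 : f = g := sub_eq_zero.mp e2
  subst e3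
  have e4 : (2 : ℂ) • f = 0 := by rw [two_smul]; exact e1
  have e5 : f = 0 := by
    rcases smul_eq_zero.mp e4 with h5 | h5
    · norm_num at h5
    · exact h5
  rw [e5]; rfl

end Fermat.Agent.ES
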