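import Fermat.Agent.ES.Primitive

set_option autoImplicit false

/-!
# A maximum modulus principle on `Γ \ ℍ*`
-/

open UpperHalfPlane Filter Topology Function
open scoped MatrixGroups Manifold ModularForm

namespace Fermat.Agent.ES

/-- Holomorphic functions on `ℍ` all of whose `SL(2, ℤ)` translates are `M`-periodic with a limit
at infinity. -/
structure Good (M : ℝ) (F : ℍ → ℂ) : Prop where
  holo : MDiff F
  periodic : ∀ δ : SL(2, ℤ), Periodic ((fun z : ℍ => F (δ • z)) ∘ ofComplex) M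
  limit : ∀ δ : SL(2, ℤ), ∃ L : ℂ, Tendsto (fun z : ℍ => F (δ • z)) atImInfty (𝓝 L)

lemma IsPrim.mdiff {F f : ℍ → ℂ} (hF : IsPrim F f) : MDiff F := fun τ =>
  UpperHalfPlane.mdifferentiableAt_iff.mpr (hF τ).differentiableAt

lemma mdiff_comp_SL {F : ℍ → ℂ} (hF : MDiff F) (δ : SL(2, ℤ)) : MDiff (fun z : ℍ => F (δ • z)) := by
  have hdet : 0 < ((δ : GL (Fin 2) ℝ)).det.val := by
    show 0 < ((δ : GL (Fin 2) ℝ)).val.det
    rw [det_coe_SL]; exact one_pos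
  exact hF.comp (mdifferentiable_smul hdet)

theorem Good.const_of_norm_invariant {M : ℝ} (hM : 0 < M) {E : ℍ → ℂ} (hE : Good M E)
    (Γ : Subgroup SL(2, ℤ)) [Γ.FiniteIndex] (hinv : ∀ γ ∈ Γ, ∀ z : ℍ, ‖E (γ • z)‖ = ‖E z‖) :
    ∀ z w : ℍ, E z = E w := by
  classical
  -- cusp functions
  let c : SL(2, ℤ) → ℂ → ℂ := fun δ => cuspFunction M (fun z : ℍ => E (δ • z))
  have hcd : ∀ δ, DifferentiableOn ℂ (c δ) (Metric.ball 0 1) := by
    intro δ
    obtain ⟨L, hL⟩ := hE.limit δ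
    exact differentiableOn_cuspFunction_ball hM (hE.periodic δ) (mdiff_comp_SL hE.holo δ)
      (hL.isBigO_one ℝ)
  have hcE : ∀ δ (τ : ℍ), c δ (Periodic.qParam M τ) = E (δ • τ) := fun δ τ =>
    eq_cuspFunction τ hM.ne' (hE.periodic δ)
  -- compact disc
  set ρ : ℝ := Real.exp (-2 * Real.pi * (1 / 2) / M) with hρ
  have hρ1 : ρ < 1 := by
    rw [hρ, Real.exp_lt_one_iff]
    have : 0 < Real.pi := Real.pi_pos
    apply div_neg_of_neg_of_pos _ hM
    linarith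
  have hρ0 : 0 < ρ := Real.exp_pos _
  have hK : IsCompact (Metric.closedBall (0 : ℂ) ρ) := isCompact_closedBall _ _
  have hKne : (Metric.closedBall (0 : ℂ) ρ).Nonempty := ⟨0, Metric.mem_closedBall_self hρ0.le⟩
  have hKb : Metric.closedBall (0 : ℂ) ρ ⊆ Metric.ball 0 1 := Metric.closedBall_subset_ball hρ1
  have hmax : ∀ δ, ∃ q ∈ Metric.closedBall (0 : ℂ) ρ, ∀ q' ∈ Metric.closedBall (0 : ℂ) ρ,
      ‖c δ q'‖ ≤ ‖c δ q‖ := by
    intro δ
    obtain ⟨q, hq, hq'⟩ := hK.exists_isMaxOn hKne (((hcd δ).continuousOn.mono hKb).norm)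
    exact ⟨q, hq, fun q' h => hq' h⟩
  choose q hqK hq using hmax
  -- representatives of right cosets: `δ = γ * r`
  let R : Set SL(2, ℤ) := Set.range (fun x : SL(2, ℤ) ⧸ Γ => (Quotient.out x)⁻¹)
  have hRfin : R.Finite := Set.finite_range _
  have hRne : R.Nonempty := ⟨_, ⟨((1 : SL(2, ℤ)) : SL(2, ℤ) ⧸ Γ), rfl⟩⟩
  have hdec : ∀ δ : SL(2, ℤ), ∃ r ∈ R, ∃ γ ∈ Γ, δ = γ * r := by
    intro δ
    let x : SL(2, ℤ) ⧸ Γ := ((δ⁻¹ : SL(2, ℤ)) : SL(2, ℤ) ⧸ Γ)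
    have hx : ((Quotient.out x : SL(2, ℤ)) : SL(2, ℤ) ⧸ Γ) = x := Quotient.out_eq' x
    rw [QuotientGroup.eq] at hx
    refine ⟨(Quotient.out x)⁻¹, ⟨x, rfl⟩, δ * Quotient.out x, ?_, by group⟩
    have h2 := Γ.inv_mem hx
    simpa using h2
  obtain ⟨r₀, hr₀, hr₀max⟩ := hRfin.exists_maximalFor (fun r => ‖c r (q r)‖) R hRne
  -- bound on `‖E‖`
  have hle : ∀ r ∈ R, ‖c r (q r)‖ ≤ ‖c r₀ (q r₀)‖ := by
    intro r hr
    by_contra hcon
    exact hcon (hr₀max hr (not_le.mp hcon).le)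
  have hbound : ∀ z : ℍ, ‖E z‖ ≤ ‖c r₀ (q r₀)‖ := by
    intro z
    obtain ⟨g, hg⟩ := ModularGroup.exists_one_half_le_im_smul z
    obtain ⟨r, hr, γ, hγ, hgr⟩ := hdec g⁻¹
    have h1 : z = γ • (r • (g • z)) := by
      rw [← mul_smul, ← mul_smul, ← hgr]; simp
    have h2 : ‖E z‖ = ‖c r (Periodic.qParam M (g • z : ℍ))‖ := by
      rw [hcE]
      conv_lhs => rw [h1]
      exact hinv γ hγ _
    rw [h2]
    refine (hq r _ ?_).trans (hle r hr)
    rw [mem_closedBall_zero_iff, Periodic.norm_qParam, hρ, Real.exp_le_exp]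
    apply div_le_div_of_nonneg_right _ hM.le
    have hpi := Real.pi_pos
    have him : (1 / 2 : ℝ) ≤ ((g • z : ℍ) : ℂ).im := hg
    nlinarith
  -- maximum principle
  have hmaxOn : IsMaxOn (norm ∘ c r₀) (Metric.ball 0 1) (q r₀) := by
    intro x hx
    by_cases hx0 : x = 0
    · rw [hx0]
      exact hq r₀ 0 (Metric.mem_closedBall_self hρ0.le)
    · have hx1 : ‖x‖ < 1 := mem_ball_zero_iff.mp hx
      have him := Periodic.im_invQParam_pos_of_norm_lt_one hM hx1 hx0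
      have h3 := hcE r₀ ⟨Periodic.invQParam M x, him⟩
      have h4 : Periodic.qParam M (((⟨Periodic.invQParam M x, him⟩ : ℍ)) : ℂ) = x :=
        Periodic.qParam_right_inv hM.ne' hx0
      rw [h4] at h3
      show ‖c r₀ x‖ ≤ ‖c r₀ (q r₀)‖
      rw [h3]
      exact hbound _
  have hconst := Complex.eqOn_of_isPreconnected_of_isMaxOn_norm
    (convex_ball (0 : ℂ) 1).isPreconnected Metric.isOpen_ball (hcd r₀) (hKb (hqK r₀)) hmaxOn
  have hEc : ∀ z : ℍ, E z = c r₀ (q r₀) := by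
    intro z
    have h5 := hcE r₀ (r₀⁻¹ • z)
    rw [smul_inv_smul] at h5
    rw [← h5]
    exact hconst (by
      rw [mem_ball_zero_iff]; exact Periodic.norm_qParam_lt_one hM (r₀⁻¹ • z).im_pos)
  intro z w
  rw [hEc z, hEc w]

end Fermat.Agent.ES
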