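import Fermat.Agent.ES.PeriodExist

set_option autoImplicit false

/-!
# The periods of a cusp form are parabolic
-/

open UpperHalfPlane Filter Topology Function CongruenceSubgroup
open ModularCurve ModularCurve.Period ModularGroup
open scoped MatrixGroups Manifold ModularForm Pointwise

namespace Fermat.Agent.ES

/-- An element of `SL(2, ℤ)` of trace `±2` is conjugate to an upper triangular one. -/
theorem exists_conj_lower_left_eq_zero (γ : SL(2, ℤ))
    (h : (γ : Matrix (Fin 2) (Fin 2) ℤ).trace ^ 2 = 4) :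
    ∃ δ : SL(2, ℤ), (δ⁻¹ * γ * δ) 1 0 = 0 := by
  set a := γ 0 0 with ha
  set b := γ 0 1 with hb
  set c := γ 1 0 with hc
  set d := γ 1 1 with hd
  have hdet : a * d - b * c = 1 := by
    have := γ.det_coe
    rw [Matrix.det_fin_two] at this
    exact this
  have htr : (a + d) ^ 2 = 4 := by
    rw [Matrix.trace_fin_two] at h
    exact h
  by_cases hc0 : c = 0
  · exact ⟨1, by simpa using hc0⟩
  -- `a + d = 2 ε`
  obtain ⟨e, he, hte⟩ : ∃ e : ℤ, e ^ 2 = 1 ∧ a + d = 2 * e := by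
    have h2 : (a + d - 2) * (a + d + 2) = 0 := by linear_combination htr
    rcases mul_eq_zero.mp h2 with h3 | h3
    · exact ⟨1, by norm_num, by linarith⟩
    · exact ⟨-1, by norm_num, by linarith⟩
  -- primitive vector in the kernel of `γ - e`
  obtain ⟨g, hg0, x, y, hx, hy, hxy⟩ : ∃ g : ℤ, g ≠ 0 ∧ ∃ x y : ℤ, a - e = g * x ∧ c = g * y ∧
      IsCoprime x y := by
    have hgpos : 0 < Int.gcd (a - e) c := Int.gcd_pos_of_ne_zero_right _ hc0
    obtain ⟨x, hx⟩ := Int.gcd_dvd_left (a - e) c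
    obtain ⟨y, hy⟩ := Int.gcd_dvd_right (a - e) c
    refine ⟨Int.gcd (a - e) c, by exact_mod_cast hgpos.ne', x, y, hx, hy, ?_⟩
    have hg' : ((Int.gcd (a - e) c : ℕ) : ℤ) ≠ 0 := by exact_mod_cast hgpos.ne'
    have hbez := Int.gcd_eq_gcd_ab (a - e) c
    refine ⟨Int.gcdA (a - e) c, Int.gcdB (a - e) c, ?_⟩
    apply mul_left_cancel₀ hg'
    linear_combination -hbez - (Int.gcdA (a - e) c) * hx - (Int.gcdB (a - e) c) * hy
  obtain ⟨u, v, huv⟩ := hxy
  -- `u * x + v * y = 1`
  let δ : SL(2, ℤ) := ⟨!![x, -v; y, u], by rw [Matrix.det_fin_two_of]; linear_combination huv⟩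
  refine ⟨δ, ?_⟩
  -- the two equations `(a - e) x + b y = 0`, `c x + (d - e) y = 0`
  have hde : d - e = -(a - e) := by linear_combination hte
  have e1 : c * x + (d - e) * y = 0 := by
    rw [hde, hx, hy]; ring
  have e2 : (a - e) * x + b * y = 0 := by
    have h3 : g * ((a - e) * x + b * y) = 0 := by
      have h4 : g * ((a - e) * x + b * y) = (a - e) * (a - e) + b * c := by
        linear_combination -(a - e) * hx - b * hy
      rw [h4]
      have hd' : d = 2 * e - a := by linarith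
      rw [hd'] at hdet
      linear_combination (-1 : ℤ) * hdet + he
    rcases mul_eq_zero.mp h3 with h4 | h4
    · exact absurd h4 hg0
    · exact h4
  have hγ : (γ : Matrix (Fin 2) (Fin 2) ℤ) = !![a, b; c, d] := by
    ext i j; fin_cases i <;> fin_cases j <;> rfl
  have hδinv : ((δ⁻¹ : SL(2, ℤ)) : Matrix (Fin 2) (Fin 2) ℤ) = !![u, v; -y, x] := by
    rw [Matrix.SpecialLinearGroup.SL2_inv_expl]
    ext i j; fin_cases i <;> fin_cases j <;> simp [δ]
  have hδ' : (δ : Matrix (Fin 2) (Fin 2) ℤ) = !![x, -v; y, u] := rfl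
  show ((δ⁻¹ * γ * δ : SL(2, ℤ)) : Matrix (Fin 2) (Fin 2) ℤ) 1 0 = 0
  rw [Matrix.SpecialLinearGroup.coe_mul, Matrix.SpecialLinearGroup.coe_mul, hδinv, hγ, hδ']
  simp [Matrix.mul_apply, Fin.sum_univ_two]
  linear_combination x * e1 - y * e2

lemma tendsto_T_zpow_atImInfty (n : ℤ) :
    Tendsto (fun z : ℍ => (T ^ n • z : ℍ)) atImInfty atImInfty := by
  rw [atImInfty, tendsto_comap_iff]
  have : (UpperHalfPlane.im ∘ fun z : ℍ => (T ^ n • z : ℍ)) = UpperHalfPlane.im := by
    funext z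
    exact im_T_zpow_smul z n
  rw [this]
  exact tendsto_comap

theorem periodMap_mem_parabolicHoms {N : ℕ} [NeZero N] (f : CuspForm (Gamma0 N) 2) :
    periodMap N f ∈ parabolicHoms ℂ (Gamma0 N) ℂ := by
  intro γ hγ
  obtain ⟨F, hF⟩ := exists_hasEquivariantPrimitive f
  obtain ⟨δ, hδ⟩ := exists_conj_lower_left_eq_zero γ hγ
  obtain ⟨n, hn⟩ := exists_eq_T_zpow_of_c_eq_zero hδ
  obtain ⟨L, hL⟩ := hF.2.2.2 δ
  have h1 : Tendsto (fun w : ℍ => F (δ • (T ^ n • w : ℍ)) - F (δ • w)) atImInfty (𝓝 (L - L)) :=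
    (hL.comp (tendsto_T_zpow_atImInfty n)).sub hL
  rw [sub_self] at h1
  have h2 : (fun w : ℍ => F (δ • (T ^ n • w : ℍ)) - F (δ • w)) =
      fun _ => periodMap N f (Additive.ofMul γ) := by
    funext w
    rw [periodMap_apply hF γ (δ • w), ← hn w]
    congr 2
    rw [← mul_smul, ← mul_smul]
    congr 1
    group
  rw [h2] at h1
  exact tendsto_nhds_unique tendsto_const_nhds h1

end Fermat.Agent.ES
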