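import Fermat.Agent.ES.MaxMod

set_option autoImplicit false

/-!
# Existence of equivariant primitives, linearity of the period map, parabolicity
-/

open UpperHalfPlane Filter Topology Function CongruenceSubgroup
open ModularCurve ModularCurve.Period
open scoped MatrixGroups Manifold ModularForm Pointwise

namespace Fermat.Agent.ES

variable {N : ℕ} [NeZero N]

/-- A common period for all translates. -/
theorem exists_common_period (N : ℕ) [NeZero N] : ∃ M : ℕ, 0 < M ∧ ∀ γ : SL(2, ℤ),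
    (M : ℝ) ∈ (ConjAct.toConjAct (Matrix.SpecialLinearGroup.mapGL ℝ γ) •
      ((Gamma0 N : Subgroup SL(2, ℤ)) : Subgroup (GL (Fin 2) ℝ))).strictPeriods :=
  Subgroup.IsArithmetic.exists_nat_mem_strictPeriods_conj _

/-- The primitives of the translates of a cusp form. -/
theorem exists_translate_prim (f : CuspForm (Gamma0 N) 2) :
    ∃ M : ℕ, 0 < M ∧ ∀ δ : SL(2, ℤ), ∃ G : ℍ → ℂ, IsPrim G (⇑f ∣[(2 : ℤ)] δ) ∧
      Tendsto G atImInfty (𝓝 0) ∧ Periodic (G ∘ ofComplex) (M : ℝ) := by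
  obtain ⟨M, hM, hper⟩ := exists_common_period N
  refine ⟨M, hM, fun δ => ?_⟩
  let g := CuspForm.translate f (δ : GL (Fin 2) ℝ)
  have hg : ⇑g = ⇑f ∣[(2 : ℤ)] δ := CuspForm.coe_translate f δ
  have hM' : (0 : ℝ) < M := by exact_mod_cast hM
  have hMper : (M : ℝ) ∈ (ConjAct.toConjAct (δ : GL (Fin 2) ℝ)⁻¹ •
      ((Gamma0 N : Subgroup SL(2, ℤ)) : Subgroup (GL (Fin 2) ℝ))).strictPeriods := by
    have := hper δ⁻¹
    rwa [map_inv] at this
  have : Fact (IsCusp OnePoint.infty (ConjAct.toConjAct (δ : GL (Fin 2) ℝ)⁻¹ •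
      ((Gamma0 N : Subgroup SL(2, ℤ)) : Subgroup (GL (Fin 2) ℝ)))) :=
    ⟨Subgroup.isCusp_of_mem_strictPeriods hM' hMper⟩
  rw [← hg]
  exact exists_prim_of_periodic hM' (SlashInvariantFormClass.periodic_comp_ofComplex g hMper)
    (ModularFormClass.holo g) (CuspFormClass.zero_at_infty g)

omit [NeZero N] in
lemma slash_SL_eq (f : CuspForm (Gamma0 N) 2) (γ : Gamma0 N) :
    ⇑f ∣[(2 : ℤ)] (γ : SL(2, ℤ)) = ⇑f := by
  have h := SlashInvariantFormClass.slash_action_eq f ((γ : SL(2, ℤ)) : GL (Fin 2) ℝ)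
    ⟨γ, γ.2, rfl⟩
  exact h

omit [NeZero N] in
/-- Existence of the equivariant primitive, with all its good properties, for a fixed period. -/
theorem exists_good_primitive_of (f : CuspForm (Gamma0 N) 2) {M : ℕ}
    (H : ∀ δ : SL(2, ℤ), ∃ G : ℍ → ℂ, IsPrim G (⇑f ∣[(2 : ℤ)] δ) ∧
      Tendsto G atImInfty (𝓝 0) ∧ Periodic (G ∘ ofComplex) (M : ℝ)) :
    ∃ F : ℍ → ℂ, Good M F ∧ IsPrim F f ∧ HasEquivariantPrimitive N f F := by
  obtain ⟨F, hF, hFlim, -⟩ := H 1
  rw [SlashAction.slash_one] at hF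
  have hδ : ∀ δ : SL(2, ℤ), ∃ G : ℍ → ℂ, ∃ c : ℂ, (∀ z : ℍ, F (δ • z) = G z + c) ∧
      Tendsto G atImInfty (𝓝 0) ∧ Periodic (G ∘ ofComplex) (M : ℝ) := by
    intro δ
    obtain ⟨G, hG, hGlim, hGper⟩ := H δ
    obtain ⟨c, hc⟩ := (hF.comp_SL δ).exists_const hG
    exact ⟨G, c, hc, hGlim, hGper⟩
  have hgood : Good M F := by
    refine ⟨hF.mdiff, fun δ => ?_, fun δ => ?_⟩
    · obtain ⟨G, c, hc, -, hGper⟩ := hδ δ
      intro z
      have := hGper z
      simp only [Function.comp_apply] at this ⊢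
      rw [hc, hc, this]
    · obtain ⟨G, c, hc, hGlim, -⟩ := hδ δ
      refine ⟨0 + c, ?_⟩
      have h2 := hGlim.add_const c
      refine h2.congr fun z => ?_
      rw [hc]
  refine ⟨F, hgood, hF, hF, hFlim, fun γ => ?_, hgood.limit⟩
  have h1 := hF.comp_SL (γ : SL(2, ℤ))
  rw [slash_SL_eq] at h1
  obtain ⟨c, hc⟩ := h1.exists_const hF
  refine ⟨c, fun z => ?_⟩
  rw [hc z]; ring

theorem exists_hasEquivariantPrimitive (f : CuspForm (Gamma0 N) 2) :
    ∃ F : ℍ → ℂ, HasEquivariantPrimitive N f F := by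
  obtain ⟨M, -, H⟩ := exists_translate_prim f
  obtain ⟨F, -, -, hF⟩ := exists_good_primitive_of f H
  exact ⟨F, hF⟩

omit [NeZero N] in
/-- The equivariant primitive is unique. -/
theorem hasEquivariantPrimitive_unique {f : CuspForm (Gamma0 N) 2} {F G : ℍ → ℂ}
    (hF : HasEquivariantPrimitive N f F) (hG : HasEquivariantPrimitive N f G) : F = G := by
  have h1 : IsPrim F f := hF.1
  have h2 : IsPrim G f := hG.1
  obtain ⟨c, hc⟩ := h1.exists_const h2
  have h3 : Tendsto F atImInfty (𝓝 (0 + c)) := by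
    refine (hG.2.1.add_const c).congr fun z => ?_
    rw [hc]
  have h4 := tendsto_nhds_unique h3 hF.2.1
  funext z
  rw [hc z]
  rw [zero_add] at h4
  rw [h4, add_zero]

omit [NeZero N] in
theorem periodMap_apply {f : CuspForm (Gamma0 N) 2} {F : ℍ → ℂ}
    (hF : HasEquivariantPrimitive N f F) (γ : Gamma0 N) (z : ℍ) :
    periodMap N f (Additive.ofMul γ) = F ((γ : SL(2, ℤ)) • z) - F z := by
  obtain ⟨F₀, h₀, h⟩ := periodMap_def N f hF
  have hu := hasEquivariantPrimitive_unique hF h₀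
  subst hu
  rw [h, IsEquivariantPrimitive.periodHom_apply, ← IsEquivariantPrimitive.sub_eq_period _ γ z]

omit [NeZero N] in
theorem HasEquivariantPrimitive_add {f g : CuspForm (Gamma0 N) 2} {F G : ℍ → ℂ}
    (hF : HasEquivariantPrimitive N f F) (hG : HasEquivariantPrimitive N g G) :
    HasEquivariantPrimitive N (f + g) (F + G) := by
  refine ⟨?_, ?_, ?_, ?_⟩
  · have h1 : IsPrim F f := hF.1
    have h2 : IsPrim G g := hG.1
    exact (h1.add h2)
  · have := hF.2.1.add hG.2.1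
    rwa [add_zero] at this
  · intro γ
    obtain ⟨c, hc⟩ := hF.2.2.1 γ
    obtain ⟨d, hd⟩ := hG.2.2.1 γ
    refine ⟨c + d, fun z => ?_⟩
    simp only [Pi.add_apply]
    rw [← hc z, ← hd z]; ring
  · intro δ
    obtain ⟨L, hL⟩ := hF.2.2.2 δ
    obtain ⟨L', hL'⟩ := hG.2.2.2 δ
    exact ⟨L + L', hL.add hL'⟩

omit [NeZero N] in
theorem HasEquivariantPrimitive_smul {f : CuspForm (Gamma0 N) 2} {F : ℍ → ℂ} (a : ℂ)
    (hF : HasEquivariantPrimitive N f F) : HasEquivariantPrimitive N (a • f) (a • F) := by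
  refine ⟨?_, ?_, ?_, ?_⟩
  · have h1 : IsPrim F f := hF.1
    exact (h1.const_smul a)
  · have := hF.2.1.const_mul a
    rwa [mul_zero] at this
  · intro γ
    obtain ⟨c, hc⟩ := hF.2.2.1 γ
    refine ⟨a * c, fun z => ?_⟩
    simp only [Pi.smul_apply, smul_eq_mul]
    rw [← hc z]; ring
  · intro δ
    obtain ⟨L, hL⟩ := hF.2.2.2 δ
    exact ⟨a * L, hL.const_mul a⟩

variable (N) in
/-- The period map as a linear map. -/
noncomputable def periodLin : CuspForm (Gamma0 N) 2 →ₗ[ℂ] (Additive (Gamma0 N) →+ ℂ) where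
  toFun f := periodMap N f
  map_add' f g := by
    obtain ⟨F, hF⟩ := exists_hasEquivariantPrimitive f
    obtain ⟨G, hG⟩ := exists_hasEquivariantPrimitive g
    refine AddMonoidHom.ext fun γ => ?_
    show periodMap N (f + g) (Additive.ofMul γ.toMul) =
      periodMap N f (Additive.ofMul γ.toMul) + periodMap N g (Additive.ofMul γ.toMul)
    rw [periodMap_apply hF γ.toMul UpperHalfPlane.I, periodMap_apply hG γ.toMul UpperHalfPlane.I,
      periodMap_apply (HasEquivariantPrimitive_add hF hG) γ.toMul UpperHalfPlane.I]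
    simp only [Pi.add_apply]
    ring
  map_smul' a f := by
    obtain ⟨F, hF⟩ := exists_hasEquivariantPrimitive f
    refine AddMonoidHom.ext fun γ => ?_
    show periodMap N (a • f) (Additive.ofMul γ.toMul) = a * periodMap N f (Additive.ofMul γ.toMul)
    rw [periodMap_apply hF γ.toMul UpperHalfPlane.I,
      periodMap_apply (HasEquivariantPrimitive_smul a hF) γ.toMul UpperHalfPlane.I]
    simp only [Pi.smul_apply, smul_eq_mul]
    ring

theorem existsPeriodMapLinear (N : ℕ) [NeZero N] : ExistsPeriodMapLinear N :=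
  ⟨periodLin N, fun _ => rfl⟩

theorem periodHomPair_apply (f g : CuspForm (Gamma0 N) 2) :
    periodHomPair N (f, g) = periodMap N f + charInvolution N ℂ ℂ (periodMap N f) +
      (periodMap N g - charInvolution N ℂ ℂ (periodMap N g)) := by
  obtain ⟨pml, hpml, h⟩ := periodHomPair_def N (existsPeriodMapLinear N)
  rw [h]
  simp only [LinearMap.coprod_apply, LinearMap.comp_apply, LinearMap.add_apply,
    LinearMap.sub_apply, LinearMap.id_apply, hpml]

end Fermat.Agent.ES
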