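import Mathlib

set_option autoImplicit false

/-!
# Linear algebra of permutation modules

For a finite set `X` with an involution `s` and a permutation `w` with `w ^ 3 = 1`, we compute the
dimensions of the spaces of (anti-)invariant functions.
-/

open Module

namespace Fermat.Agent.ES

variable {X : Type*}

/-- Precomposition by a permutation. -/
def precomp (s : Equiv.Perm X) : (X → ℂ) →ₗ[ℂ] (X → ℂ) := LinearMap.funLeft ℂ ℂ s

@[simp] lemma precomp_apply (s : Equiv.Perm X) (v : X → ℂ) (x : X) : precomp s v x = v (s x) := rfl

/-- The functions invariant under a permutation. -/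
def inv (s : Equiv.Perm X) : Submodule ℂ (X → ℂ) where
  carrier := {v | ∀ x, v (s x) = v x}
  zero_mem' := fun _ => rfl
  add_mem' := fun {a b} ha hb x => by simp [ha x, hb x]
  smul_mem' := fun c a ha x => by simp [ha x]

lemma mem_inv {s : Equiv.Perm X} {v : X → ℂ} : v ∈ inv s ↔ ∀ x, v (s x) = v x := Iff.rfl

/-- Functions with `v ∘ s = - v`. -/
def anti (s : Equiv.Perm X) : Submodule ℂ (X → ℂ) where
  carrier := {v | ∀ x, v (s x) = - v x}
  zero_mem' := fun _ => by simp
  add_mem' := fun {a b} ha hb x => by simp [ha x, hb x]; ring
  smul_mem' := fun c a ha x => by simp [ha x]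

lemma mem_anti {s : Equiv.Perm X} {v : X → ℂ} : v ∈ anti s ↔ ∀ x, v (s x) = - v x := Iff.rfl

/-- Functions with `v + v ∘ w + v ∘ w ^ 2 = 0`. -/
def ker3 (w : Equiv.Perm X) : Submodule ℂ (X → ℂ) where
  carrier := {v | ∀ x, v x + v (w x) + v (w (w x)) = 0}
  zero_mem' := fun _ => by simp
  add_mem' := fun {a b} ha hb x => by
    have h1 := ha x
    have h2 := hb x
    simp only [Pi.add_apply]
    linear_combination h1 + h2
  smul_mem' := fun c a ha x => by
    have h1 := ha x
    simp only [Pi.smul_apply, smul_eq_mul]
    linear_combination c * h1

lemma mem_ker3 {w : Equiv.Perm X} {v : X → ℂ} :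
    v ∈ ker3 w ↔ ∀ x, v x + v (w x) + v (w (w x)) = 0 := Iff.rfl

variable [Fintype X]

lemma trace_precomp [DecidableEq X] (s : Equiv.Perm X) :
    LinearMap.trace ℂ (X → ℂ) (precomp s) = (Fintype.card (Function.fixedPoints s) : ℂ) := by
  rw [LinearMap.trace_eq_matrix_trace ℂ (Pi.basisFun ℂ X), Matrix.trace]
  simp only [Matrix.diag_apply, LinearMap.toMatrix_apply, Pi.basisFun_repr, Pi.basisFun_apply,
    precomp_apply, Pi.single_apply]
  rw [Finset.sum_boole, Fintype.card_subtype]
  rfl

/-- `2 * dim (invariants of an involution) = #X + #fixed points`. -/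
theorem two_mul_finrank_inv (s : Equiv.Perm X) (hs : ∀ x, s (s x) = x) :
    2 * finrank ℂ (inv s) = Fintype.card X + Nat.card (Function.fixedPoints s) := by
  classical
  let e : (X → ℂ) →ₗ[ℂ] (X → ℂ) := (2⁻¹ : ℂ) • (LinearMap.id + precomp s)
  have he : LinearMap.IsProj (inv s) e := by
    constructor
    · intro v x
      simp only [e, LinearMap.smul_apply, LinearMap.add_apply, LinearMap.id_apply, Pi.smul_apply,
        Pi.add_apply, precomp_apply, smul_eq_mul, hs]
      ring
    · intro v hv
      ext x
      have := mem_inv.mp hv x
      simp only [e, LinearMap.smul_apply, LinearMap.add_apply, LinearMap.id_apply, Pi.smul_apply,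
        Pi.add_apply, precomp_apply, smul_eq_mul, this]
      ring
  have h1 := he.trace
  simp only [e, map_smul, map_add, trace_precomp, LinearMap.trace_id, Module.finrank_fintype_fun_eq_card,
    smul_eq_mul] at h1
  have h2 : (2 : ℂ) * (finrank ℂ (inv s) : ℂ) =
      (Fintype.card X : ℂ) + (Fintype.card (Function.fixedPoints s) : ℂ) := by
    rw [← h1]; ring
  rw [Nat.card_eq_fintype_card]
  exact_mod_cast h2

/-- `3 * dim (invariants of an element of order 3) = #X + 2 #fixed points`. -/
theorem three_mul_finrank_inv (w : Equiv.Perm X) (hw : ∀ x, w (w (w x)) = x) :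
    3 * finrank ℂ (inv w) = Fintype.card X + 2 * Nat.card (Function.fixedPoints w) := by
  classical
  let e : (X → ℂ) →ₗ[ℂ] (X → ℂ) := (3⁻¹ : ℂ) • (LinearMap.id + precomp w + precomp (w * w))
  have he : LinearMap.IsProj (inv w) e := by
    constructor
    · intro v x
      simp only [e, LinearMap.smul_apply, LinearMap.add_apply, LinearMap.id_apply, Pi.smul_apply,
        Pi.add_apply, precomp_apply, smul_eq_mul, Equiv.Perm.mul_apply, hw]
      ring
    · intro v hv
      ext x
      have := mem_inv.mp hv
      simp only [e, LinearMap.smul_apply, LinearMap.add_apply, LinearMap.id_apply, Pi.smul_apply,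
        Pi.add_apply, precomp_apply, smul_eq_mul, Equiv.Perm.mul_apply, this]
      ring
  have h1 := he.trace
  have hfix : Function.fixedPoints (w * w : Equiv.Perm X) = Function.fixedPoints w := by
    ext x
    simp only [Function.mem_fixedPoints, Function.IsFixedPt, Equiv.Perm.mul_apply]
    constructor
    · intro h
      have := hw x
      rw [h] at this
      exact this
    · intro h
      rw [h, h]
  have hcard : Fintype.card (Function.fixedPoints (w * w : Equiv.Perm X)) =
      Fintype.card (Function.fixedPoints w) := by
    rw [← Nat.card_eq_fintype_card, ← Nat.card_eq_fintype_card, hfix]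
  simp only [e, map_smul, map_add, trace_precomp, LinearMap.trace_id, Module.finrank_fintype_fun_eq_card,
    smul_eq_mul, hcard] at h1
  have h2 : (3 : ℂ) * (finrank ℂ (inv w) : ℂ) =
      (Fintype.card X : ℂ) + 2 * (Fintype.card (Function.fixedPoints w) : ℂ) := by
    rw [← h1]; ring
  rw [Nat.card_eq_fintype_card]
  exact_mod_cast h2

theorem finrank_anti_add (s : Equiv.Perm X) (hs : ∀ x, s (s x) = x) :
    finrank ℂ (anti s) + finrank ℂ (inv s) = Fintype.card X := by
  have h1 := LinearMap.finrank_range_add_finrank_ker (LinearMap.id + precomp s)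
  have hk : LinearMap.ker (LinearMap.id + precomp s) = anti s := by
    ext v
    rw [LinearMap.mem_ker, mem_anti]
    constructor
    · intro h x
      have := congrFun h x
      simp only [LinearMap.add_apply, LinearMap.id_apply, Pi.add_apply, precomp_apply,
        Pi.zero_apply] at this
      linear_combination this
    · intro h
      ext x
      have := h x
      simp only [LinearMap.add_apply, LinearMap.id_apply, Pi.add_apply, precomp_apply,
        Pi.zero_apply]
      linear_combination this
  have hr : LinearMap.range (LinearMap.id + precomp s) = inv s := by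
    ext v
    rw [LinearMap.mem_range, mem_inv]
    constructor
    · rintro ⟨u, rfl⟩ x
      simp only [LinearMap.add_apply, LinearMap.id_apply, Pi.add_apply, precomp_apply, hs]
      ring
    · intro h
      refine ⟨(2⁻¹ : ℂ) • v, ?_⟩
      ext x
      simp only [LinearMap.add_apply, LinearMap.id_apply, Pi.add_apply, precomp_apply,
        Pi.smul_apply, smul_eq_mul, h x]
      ring
  rw [hk, hr, Module.finrank_fintype_fun_eq_card] at h1
  omega

theorem finrank_ker3_add (w : Equiv.Perm X) (hw : ∀ x, w (w (w x)) = x) :
    finrank ℂ (ker3 w) + finrank ℂ (inv w) = Fintype.card X := by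
  have h1 := LinearMap.finrank_range_add_finrank_ker (LinearMap.id + precomp w + precomp (w * w))
  have hk : LinearMap.ker (LinearMap.id + precomp w + precomp (w * w)) = ker3 w := by
    ext v
    rw [LinearMap.mem_ker, mem_ker3]
    constructor
    · intro h x
      have := congrFun h x
      simpa only [LinearMap.add_apply, LinearMap.id_apply, Pi.add_apply, precomp_apply,
        Pi.zero_apply, Equiv.Perm.mul_apply] using this
    · intro h
      ext x
      have := h x
      simpa only [LinearMap.add_apply, LinearMap.id_apply, Pi.add_apply, precomp_apply,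
        Pi.zero_apply, Equiv.Perm.mul_apply] using this
  have hr : LinearMap.range (LinearMap.id + precomp w + precomp (w * w)) = inv w := by
    ext v
    rw [LinearMap.mem_range, mem_inv]
    constructor
    · rintro ⟨u, rfl⟩ x
      simp only [LinearMap.add_apply, LinearMap.id_apply, Pi.add_apply, precomp_apply,
        Equiv.Perm.mul_apply, hw]
      ring
    · intro h
      refine ⟨(3⁻¹ : ℂ) • v, ?_⟩
      ext x
      simp only [LinearMap.add_apply, LinearMap.id_apply, Pi.add_apply, precomp_apply,
        Pi.smul_apply, smul_eq_mul, Equiv.Perm.mul_apply, h]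
      ring
  rw [hk, hr, Module.finrank_fintype_fun_eq_card] at h1
  omega

/-- If the only functions invariant under both `s` and `w` are the constants, then
`anti s + ker3 w` has codimension at most one. -/
theorem card_le_finrank_sup_add_one (s w : Equiv.Perm X) (hs : ∀ x, s (s x) = x)
    (hw : ∀ x, w (w (w x)) = x)
    (hconst : ∀ v : X → ℂ, v ∈ inv s → v ∈ inv w → ∃ c : ℂ, ∀ x, v x = c) :
    Fintype.card X ≤ finrank ℂ ↥(anti s ⊔ ker3 w) + 1 := by
  classical
  -- the annihilator of the sum is at most one dimensional
  set W : Submodule ℂ (X → ℂ) := anti s ⊔ ker3 w with hW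
  have h1 : finrank ℂ W + finrank ℂ W.dualAnnihilator = Fintype.card X := by
    rw [Subspace.finrank_add_finrank_dualAnnihilator_eq, Module.finrank_fintype_fun_eq_card]
  have h2 : finrank ℂ W.dualAnnihilator ≤ 1 := by
    -- evaluation at the vector `1` basis: every functional is `v ↦ ∑ l x v x`
    let f : W.dualAnnihilator →ₗ[ℂ] ℂ :=
      { toFun := fun l => (l : Module.Dual ℂ (X → ℂ)) (fun _ => 1)
        map_add' := fun _ _ => rfl
        map_smul' := fun _ _ => rfl }
    have hf : Function.Injective f := by
      rw [injective_iff_map_eq_zero]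
      rintro ⟨l, hl⟩ h0
      have h0' : l (fun _ => 1) = 0 := h0
      apply Subtype.ext
      show l = 0
      -- the coefficient function
      let c : X → ℂ := fun x => l (Pi.single x 1)
      have hlc : ∀ v : X → ℂ, l v = ∑ x, v x * c x := by
        intro v
        conv_lhs => rw [← Finset.univ_sum_single v]
        rw [map_sum]
        refine Finset.sum_congr rfl fun x _ => ?_
        have : (Pi.single x (v x) : X → ℂ) = v x • Pi.single x 1 := by
          rw [← Pi.single_smul', smul_eq_mul, mul_one]
        rw [this, map_smul, smul_eq_mul]
      have hmem : ∀ v ∈ W, l v = 0 := by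
        intro v hv
        exact (Submodule.mem_dualAnnihilator l).mp hl v hv
      have hcs : c ∈ inv s := by
        intro x
        have hv : (Pi.single (s x) 1 - Pi.single x 1 : X → ℂ) ∈ W := by
          apply Submodule.mem_sup_left
          intro y
          simp only [Pi.sub_apply, Pi.single_apply, s.injective.eq_iff]
          have : (s y = x) = (y = s x) := by
            apply propext
            constructor
            · intro h; rw [← h, hs]
            · intro h; rw [h, hs]
          rw [this]
          ring
        have := hmem _ hv
        rw [map_sub, sub_eq_zero] at this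
        exact this
      have hcw : c ∈ inv w := by
        intro x
        have hv : (Pi.single (w x) 1 - Pi.single x 1 : X → ℂ) ∈ W := by
          apply Submodule.mem_sup_right
          intro y
          simp only [Pi.sub_apply, Pi.single_apply, w.injective.eq_iff]
          have e1 : (w (w y) = x) = (y = w x) := by
            apply propext
            constructor
            · intro h; rw [← h, hw]
            · intro h; rw [h, hw]
          rw [e1]
          ring
        have := hmem _ hv
        rw [map_sub, sub_eq_zero] at this
        exact this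
      obtain ⟨d, hd⟩ := hconst c hcs hcw
      have h3 := hlc (fun _ => 1)
      rw [h0'] at h3
      simp only [hd, one_mul, Finset.sum_const, nsmul_eq_mul] at h3
      by_cases hX : Nonempty X
      · have hcard : (Fintype.card X : ℂ) ≠ 0 := by
          exact_mod_cast Fintype.card_ne_zero
        have hd0 : d = 0 := by
          rcases mul_eq_zero.mp h3.symm with h | h
          · exact absurd h hcard
          · exact h
        ext v
        simp [c, hd0] at hd ⊢
        exact hd v
      · rw [not_nonempty_iff] at hX
        ext v
        exact (hX.false v).elim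
    have := LinearMap.finrank_le_finrank_of_injective hf
    simpa using this
  omega

/-- The dimension of `anti s ∩ ker3 w`. -/
theorem finrank_inf_le (s w : Equiv.Perm X) (hs : ∀ x, s (s x) = x)
    (hw : ∀ x, w (w (w x)) = x)
    (hconst : ∀ v : X → ℂ, v ∈ inv s → v ∈ inv w → ∃ c : ℂ, ∀ x, v x = c) :
    finrank ℂ ↥(anti s ⊓ ker3 w) + finrank ℂ (inv s) + finrank ℂ (inv w) ≤ Fintype.card X + 1 := by
  have h1 := Submodule.finrank_sup_add_finrank_inf_eq (anti s) (ker3 w)
  have h2 := card_le_finrank_sup_add_one s w hs hw hconst
  have h3 := finrank_anti_add s hs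
  have h4 := finrank_ker3_add w hw
  omega

end Fermat.Agent.ES
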