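import Mathlib
import Fermat.Prelude.Thm_Subgroup_IsArithmetic_exists_nat_mem_strictPeriods_conj
import Fermat.Prelude.Def_ModularCurve_PeriodHomPair

set_option autoImplicit false

/-!
# Primitives of weight two cusp forms
-/

open UpperHalfPlane Filter Topology Function
open scoped MatrixGroups Manifold ModularForm

namespace Fermat.Agent.ES

/-- `F` is a primitive of `f` on the upper half plane. -/
def IsPrim (F f : ℍ → ℂ) : Prop := ∀ τ : ℍ, HasDerivAt (F ∘ ofComplex) (f τ) ↑τ

lemma IsPrim.add {F G f g : ℍ → ℂ} (hF : IsPrim F f) (hG : IsPrim G g) : IsPrim (F + G) (f + g) :=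
  fun τ => (hF τ).add (hG τ)

lemma IsPrim.sub {F G f g : ℍ → ℂ} (hF : IsPrim F f) (hG : IsPrim G g) : IsPrim (F - G) (f - g) :=
  fun τ => (hF τ).sub (hG τ)

lemma IsPrim.const_smul {F f : ℍ → ℂ} (c : ℂ) (hF : IsPrim F f) : IsPrim (c • F) (c • f) :=
  fun τ => (hF τ).const_mul c

lemma IsPrim.const_of_zero {F : ℍ → ℂ} (hF : IsPrim F 0) (z w : ℍ) : F z = F w := by
  have hopen : IsOpen {z : ℂ | 0 < z.im} := isOpen_upperHalfPlaneSet
  have hconn : IsPreconnected {z : ℂ | 0 < z.im} :=
    (Complex.isConnected_of_upperHalfPlane subset_rfl (by grind)).isPreconnected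
  have hd : DifferentiableOn ℂ (F ∘ ofComplex) {z : ℂ | 0 < z.im} := fun x hx =>
    (hF ⟨x, hx⟩).differentiableAt.differentiableWithinAt
  have h := hopen.is_const_of_deriv_eq_zero hconn hd (fun x hx => (hF ⟨x, hx⟩).deriv)
    (x := z) (y := w) z.im_pos w.im_pos
  simpa using h

lemma IsPrim.exists_const {F G f : ℍ → ℂ} (hF : IsPrim F f) (hG : IsPrim G f) :
    ∃ c : ℂ, ∀ z, F z = G z + c := by
  have h : IsPrim (F - G) 0 := by
    have := hF.sub hG
    rwa [sub_self] at this
  refine ⟨F UpperHalfPlane.I - G UpperHalfPlane.I, fun z => ?_⟩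
  have := h.const_of_zero z UpperHalfPlane.I
  simp only [Pi.sub_apply] at this
  rw [← this]; ring

lemma IsPrim.congr {F f g : ℍ → ℂ} (hF : IsPrim F f) (h : f = g) : IsPrim F g := h ▸ hF

lemma det_coe_SL (γ : SL(2, ℤ)) : ((γ : GL (Fin 2) ℝ)).val.det = 1 :=
  ((Matrix.SpecialLinearGroup.map (Int.castRingHom ℝ)) γ).2

lemma IsPrim.comp_SL {F f : ℍ → ℂ} (hF : IsPrim F f) (γ : SL(2, ℤ)) :
    IsPrim (fun z => F (γ • z)) (f ∣[(2 : ℤ)] γ) := by
  intro τ
  have hdet : 0 < ((γ : GL (Fin 2) ℝ)).val.det := by rw [det_coe_SL]; exact one_pos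
  have h1 := (hasStrictDerivAt_smul hdet τ).hasDerivAt
  have h2 : HasDerivAt (F ∘ ofComplex) (f (γ • τ)) (↑((γ : GL (Fin 2) ℝ) • ofComplex (τ : ℂ))) := by
    rw [ofComplex_apply]
    exact hF (γ • τ)
  have h3 := h2.comp (τ : ℂ) h1
  have h4 : (F ∘ ofComplex) ∘ (fun z : ℂ => (↑((γ : GL (Fin 2) ℝ) • ofComplex z) : ℂ)) =
      (fun z => F (γ • z)) ∘ ofComplex := by
    funext z
    simp only [Function.comp_apply, ofComplex_apply]
    rfl
  rw [h4] at h3
  have h5 : f (γ • τ) * (((γ : GL (Fin 2) ℝ)).val.det / denom (γ : GL (Fin 2) ℝ) τ ^ 2) =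
      (f ∣[(2 : ℤ)] γ) τ := by
    rw [ModularForm.SL_slash_apply, det_coe_SL, Complex.ofReal_one, one_div, zpow_neg]
    rfl
  rw [h5] at h3
  exact h3

/-- Existence of a primitive vanishing at infinity. -/
lemma exists_prim_of_periodic {g : ℍ → ℂ} {h : ℝ} (hh : 0 < h) (hper : Periodic (g ∘ ofComplex) h)
    (hhol : MDiff g) (hzero : IsZeroAtImInfty g) :
    ∃ G : ℍ → ℂ, IsPrim G g ∧ Tendsto G atImInfty (𝓝 0) ∧ Periodic (G ∘ ofComplex) h := by
  have hbdd : IsBoundedAtImInfty g := hzero.boundedAtFilter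
  set c : ℂ → ℂ := cuspFunction h g with hc
  have hcd : DifferentiableOn ℂ c (Metric.ball 0 1) :=
    differentiableOn_cuspFunction_ball hh hper hhol hbdd
  have hc0 : c 0 = 0 := by
    rw [hc, cuspFunction_apply_zero hh (analyticAt_cuspFunction_zero hh hper hhol hbdd) hper]
    exact hzero.valueAtInfty_eq_zero
  have hd : DifferentiableOn ℂ (dslope c 0) (Metric.ball 0 1) :=
    (Complex.differentiableOn_dslope (Metric.ball_mem_nhds 0 one_pos)).mpr hcd
  obtain ⟨P, hP0, hP⟩ := hd.isExactOn_ball.with_val_at 0 0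
  have hq : ∀ τ : ℍ, Periodic.qParam h τ ∈ Metric.ball (0 : ℂ) 1 := fun τ => by
    rw [mem_ball_zero_iff]; exact Periodic.norm_qParam_lt_one hh τ.im_pos
  refine ⟨fun τ => (h / (2 * Real.pi * Complex.I)) * P (Periodic.qParam h τ), ?_, ?_, ?_⟩
  · intro τ
    have h1 : HasDerivAt (fun z : ℂ => Periodic.qParam h z)
        (2 * Real.pi * Complex.I / h * Periodic.qParam h τ) (τ : ℂ) := by
      unfold Periodic.qParam
      have h0 : HasDerivAt (fun z : ℂ => 2 * Real.pi * Complex.I * z / h)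
          (2 * Real.pi * Complex.I / h) (τ : ℂ) := by
        have := ((hasDerivAt_id (τ : ℂ)).const_mul (2 * Real.pi * Complex.I)).div_const (h : ℂ)
        simpa using this
      have h6 := h0.cexp
      rw [mul_comm (Complex.exp _)] at h6
      exact h6
    have h2 : HasDerivAt P (dslope c 0 (Periodic.qParam h τ)) (Periodic.qParam h τ) :=
      hP _ (hq τ)
    have h3 := (h2.comp (τ : ℂ) h1).const_mul (h / (2 * Real.pi * Complex.I) : ℂ)
    have hne : Periodic.qParam h τ ≠ 0 := Periodic.qParam_ne_zero _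
    have hh' : (h : ℂ) ≠ 0 := by exact_mod_cast hh.ne'
    have hpi : (2 * Real.pi * Complex.I : ℂ) ≠ 0 := Complex.two_pi_I_ne_zero
    have h4 : (h / (2 * Real.pi * Complex.I) : ℂ) * (dslope c 0 (Periodic.qParam h τ) *
        (2 * Real.pi * Complex.I / h * Periodic.qParam h τ)) = g τ := by
      have h5 : dslope c 0 (Periodic.qParam h τ) * Periodic.qParam h τ = g τ := by
        rw [dslope_of_ne _ hne, slope_def_field, hc0, sub_zero, sub_zero, div_mul_cancel₀ _ hne]
        exact eq_cuspFunction τ hh.ne' hper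
      rw [← h5]
      field_simp
    rw [h4] at h3
    refine h3.congr_of_eventuallyEq ?_
    filter_upwards [isOpen_upperHalfPlaneSet.mem_nhds τ.im_pos] with z hz
    simp only [Function.comp_apply]
    rw [ofComplex_apply_of_im_pos hz]
  · have h1 : ContinuousAt P 0 := (hP 0 (Metric.mem_ball_self one_pos)).continuousAt
    have h2 : Tendsto (fun τ : ℍ => P (Periodic.qParam h τ)) atImInfty (𝓝 0) := by
      have := h1.tendsto.comp (qParam_tendsto_atImInfty hh)
      rwa [hP0] at this
    have h3 := h2.const_mul (h / (2 * Real.pi * Complex.I) : ℂ)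
    rwa [mul_zero] at h3
  · intro z
    simp only [Function.comp_apply]
    by_cases hz : 0 < z.im
    · have hz' : 0 < (z + h).im := by simpa using hz
      rw [ofComplex_apply_of_im_pos hz, ofComplex_apply_of_im_pos hz']
      congr 2
      show Periodic.qParam h (z + h) = Periodic.qParam h z
      have hh' : (h : ℂ) ≠ 0 := by exact_mod_cast hh.ne'
      unfold Periodic.qParam
      have : 2 * Real.pi * Complex.I * (z + h) / h =
          2 * Real.pi * Complex.I * z / h + 2 * Real.pi * Complex.I := by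
        field_simp
      rw [this, Complex.exp_add, Complex.exp_two_pi_mul_I, mul_one]
    · have hz' : (z + h).im ≤ 0 := by simpa using hz
      rw [ofComplex_apply_of_im_nonpos (not_lt.mp hz), ofComplex_apply_of_im_nonpos hz']

end Fermat.Agent.ES
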